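/-
BAD / Glue (owner helper65): gluing data and injectivity of reduction for a model whose special
fibre has SEVERAL components, possibly with multiplicities.

Language of KL-A (`Fermat/Agent/S18/Defs.lean`): everything lives inside one field `F`; charts are
subrings of `F`; the vertical valuations are a family `O : ι → ValuationSubring F`.
This file: definitions only.  Imports Mathlib only.
-/
import Mathlib

set_option autoImplicit false

namespace Fermat.Agent.BAD.Glue

variable {F : Type*} [Field F]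

/-- The maximal ideal of a valuation subring, as an additive subgroup of `F`. -/
def maxI (O : ValuationSubring F) : AddSubgroup F where
  carrier := {y | O.valuation y < 1}
  zero_mem' := by simp
  add_mem' := fun {a b} ha hb => lt_of_le_of_lt (O.valuation.map_add a b) (max_lt ha hb)
  neg_mem' := fun {a} ha => by
    show O.valuation (-a) < 1
    rw [Valuation.map_neg]; exact ha

variable {ι : Type*}

/-- A family of "vertical" valuation rings: `ϖ` lies in all maximal ideals and the ramification is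
bounded (`v_i(ϖ) ≤ E · v_i(y)` for all `y` in the maximal ideal). -/
structure IsVertFam (O : ι → ValuationSubring F) (ϖ : F) : Prop where
  ne_zero : ϖ ≠ 0
  mem : ∀ i, ϖ ∈ maxI (O i)
  bdd : ∃ E : ℕ, ∀ i, ∀ y ∈ maxI (O i), y ^ E / ϖ ∈ O i

/-- A chart of the model: a subring of `⋂ O i` containing `ϖ`, saturated (`B ∩ ϖ ⋂ O i = ϖ B`),
closed under `m`-th roots, in which `m` is invertible. -/
structure IsMChart (O : ι → ValuationSubring F) (ϖ : F) (m : ℕ) (B : Subring F) : Prop where
  le : ∀ i, ∀ b ∈ B, b ∈ O i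
  unif_mem : ϖ ∈ B
  qep : ∀ z : F, (∀ i, z ∈ O i) → ϖ * z ∈ B → z ∈ B
  root : ∀ y : F, y ^ m ∈ B → y ∈ B
  minv : (m : F)⁻¹ ∈ B

/-- The component of `O` passes through the closed point `𝔫` of the chart `B`:
the centre `B ∩ 𝔪_O` is contained in `𝔫`. -/
def Through (O : ValuationSubring F) {B : Subring F} (𝔫 : Ideal B) : Prop :=
  ∀ b : B, (b : F) ∈ maxI O → b ∈ 𝔫

/-- `g` is a local `m`-th root of `h⁻¹` at `𝔫`: `g ^ m * h` is a unit of `B_𝔫`. -/
def LocRoot {B : Subring F} (𝔫 : Ideal B) (m : ℕ) (h g : F) : Prop :=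
  ∃ a b : B, a ∉ 𝔫 ∧ b ∉ 𝔫 ∧ g ^ m * h * (b : F) = a

/-- The reduction of `g` along `O` lies in the local ring at `𝔫` of the component
(`= (B / (B ∩ 𝔪_O))_𝔫`) and its value at the closed point `𝔫` is `c`. -/
def HasVal (O : ValuationSubring F) {B : Subring F} (𝔫 : Ideal B) (g : F) (c : B ⧸ 𝔫) : Prop :=
  ∃ r s : B, s ∉ 𝔫 ∧ (s : F) * g - r ∈ maxI O ∧
    Ideal.Quotient.mk 𝔫 r = c * Ideal.Quotient.mk 𝔫 s

/-- The sum of the centres of `O` and `O'` is `𝔫`-primary in `B_𝔫`
(`N = 1`: the two components meet transversally at `𝔫`). -/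
def Primary2 (O O' : ValuationSubring F) {B : Subring F} (𝔫 : Ideal B) : Prop :=
  ∃ N : ℕ, ∀ y ∈ 𝔫 ^ N, ∃ s p p' : B, s ∉ 𝔫 ∧ (p : F) ∈ maxI O ∧ (p' : F) ∈ maxI O' ∧
    s * y = p + p'

/-- The gluing datum of `h` is trivial at all closed points of the special fibre of the chart `B`:
there is a local root whose reductions on all branches through the point have the same value. -/
def TrivGlue (O : ι → ValuationSubring F) (B : Subring F) (ϖ : F) (m : ℕ) (h : F) : Prop :=
  ∀ 𝔫 : Ideal B, 𝔫.IsMaximal → (∀ ϖB : B, (ϖB : F) = ϖ → ϖB ∈ 𝔫) →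
    (∀ i j, i ≠ j → Through (O i) 𝔫 → Through (O j) 𝔫 → Primary2 (O i) (O j) 𝔫) ∧
    ∃ (g : F) (c : B ⧸ 𝔫), LocRoot 𝔫 m h g ∧ ∀ i, Through (O i) 𝔫 → HasVal (O i) 𝔫 g c

end Fermat.Agent.BAD.Glue
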