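/-
BAD / Glue (owner helper65): elementary API for `maxI`.
-/
import Mathlib
import Fermat.Agent.BAD.Glue.Defs

set_option autoImplicit false

namespace Fermat.Agent.BAD.Glue

variable {F : Type*} [Field F] {O : ValuationSubring F}

theorem mem_maxI {y : F} : y ∈ maxI O ↔ O.valuation y < 1 := Iff.rfl

theorem maxI_le {y : F} (hy : y ∈ maxI O) : y ∈ O :=
  (O.valuation_le_one_iff y).1 (le_of_lt hy)

theorem mul_mem_maxI {a y : F} (ha : a ∈ O) (hy : y ∈ maxI O) : a * y ∈ maxI O := by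
  rw [mem_maxI, map_mul]
  exact lt_of_le_of_lt (mul_le_of_le_one_left zero_le ((O.valuation_le_one_iff a).2 ha)) hy

theorem mul_mem_maxI' {a y : F} (hy : y ∈ maxI O) (ha : a ∈ O) : y * a ∈ maxI O := by
  rw [mul_comm]; exact mul_mem_maxI ha hy

theorem one_notMem_maxI : (1 : F) ∉ maxI O := by
  rw [mem_maxI, map_one]; exact lt_irrefl _

theorem mem_maxI_iff_inv {y : F} : y ∈ maxI O ↔ y = 0 ∨ y⁻¹ ∉ O := by
  rw [mem_maxI]
  by_cases h0 : y = 0
  · simp [h0]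
  · simp only [h0, false_or]
    rw [← O.valuation_le_one_iff, map_inv₀, not_le]
    have hv : O.valuation y ≠ 0 := (Valuation.ne_zero_iff _).2 h0
    exact (one_lt_inv₀ (zero_lt_iff.2 hv)).symm

theorem inv_mem_of_notMem_maxI {y : F} (hy : y ∉ maxI O) : y⁻¹ ∈ O := by
  by_contra h
  exact hy (mem_maxI_iff_inv.2 (Or.inr h))

theorem notMem_maxI_of_inv_mem {y : F} (h0 : y ≠ 0) (hy : y⁻¹ ∈ O) : y ∉ maxI O := by
  intro h
  rcases mem_maxI_iff_inv.1 h with h | h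
  · exact h0 h
  · exact h hy

theorem mem_or_mem_of_mul_mem_maxI {a b : F} (h : a * b ∈ maxI O) (ha : a ∈ O) (hb : b ∈ O) :
    a ∈ maxI O ∨ b ∈ maxI O := by
  by_contra hcon
  push Not at hcon
  obtain ⟨h1, h2⟩ := hcon
  have h1' : O.valuation a = 1 :=
    le_antisymm ((O.valuation_le_one_iff a).2 ha) (not_lt.1 h1)
  have h2' : O.valuation b = 1 :=
    le_antisymm ((O.valuation_le_one_iff b).2 hb) (not_lt.1 h2)
  rw [mem_maxI, map_mul, h1', h2', one_mul] at h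
  exact lt_irrefl _ h

theorem mem_maxI_of_pow_mem {y : F} {k : ℕ} (h : y ^ k ∈ maxI O) : y ∈ maxI O := by
  rw [mem_maxI, map_pow] at h
  rw [mem_maxI]
  by_contra hcon
  exact absurd h (not_lt.2 (one_le_pow₀ (not_lt.1 hcon)))

theorem pow_mem_maxI {y : F} (hy : y ∈ maxI O) {k : ℕ} (hk : k ≠ 0) : y ^ k ∈ maxI O := by
  rw [mem_maxI, map_pow]
  exact pow_lt_one₀ zero_le hy hk

/-- `y ≡ 1` implies that `y` is a unit. -/
theorem unit_of_sub_one_mem {y : F} (hy : y - 1 ∈ maxI O) : y ∈ O ∧ y⁻¹ ∈ O ∧ y ≠ 0 := by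
  have h1 : y ∈ O := by
    have := O.add_mem _ _ (maxI_le hy) O.one_mem
    simpa using this
  have h2 : y ∉ maxI O := by
    intro h
    apply one_notMem_maxI (O := O)
    have := (maxI O).sub_mem h hy
    simpa using this
  refine ⟨h1, inv_mem_of_notMem_maxI h2, ?_⟩
  rintro rfl
  exact h2 (maxI O).zero_mem

/-- congruences can be multiplied. -/
theorem mul_sub_mul_mem {a a' b b' : F} (ha : a - a' ∈ maxI O) (hb : b - b' ∈ maxI O)
    (ha' : a' ∈ O) (hb' : b ∈ O) : a * b - a' * b' ∈ maxI O := by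
  have : a * b - a' * b' = (a - a') * b + a' * (b - b') := by ring
  rw [this]
  exact (maxI O).add_mem (mul_mem_maxI' ha hb') (mul_mem_maxI ha' hb)

theorem pow_sub_pow_mem {a b : F} (h : a - b ∈ maxI O) (hb : b ∈ O) (k : ℕ) :
    a ^ k - b ^ k ∈ maxI O := by
  have ha : a ∈ O := by
    have := O.add_mem _ _ (maxI_le h) hb
    simpa using this
  obtain ⟨c, hc⟩ := sub_dvd_pow_sub_pow (⟨a, ha⟩ : O) ⟨b, hb⟩ k
  have : a ^ k - b ^ k = (a - b) * c := by
    have := congrArg (Subtype.val) hc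
    simpa using this
  rw [this]
  exact mul_mem_maxI' h c.2

theorem pow_sub_one_mem {a : F} (h : a - 1 ∈ maxI O) (k : ℕ) : a ^ k - 1 ∈ maxI O := by
  simpa using pow_sub_pow_mem h O.one_mem k

theorem inv_sub_inv_mem {a b : F} (h : a - b ∈ maxI O) (ha : a⁻¹ ∈ O) (hb : b⁻¹ ∈ O)
    (ha0 : a ≠ 0) (hb0 : b ≠ 0) : a⁻¹ - b⁻¹ ∈ maxI O := by
  have : a⁻¹ - b⁻¹ = -(a⁻¹ * b⁻¹ * (a - b)) := by field_simp; ring
  rw [this]
  exact (maxI O).neg_mem (mul_mem_maxI (O.mul_mem _ _ ha hb) h)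

end Fermat.Agent.BAD.Glue
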