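/-
BAD / Glue, node G6: bounded torsion of the Cech `H¹` of `{y | y ^ m * h ∈ B}`.
-/
import Mathlib
import Fermat.Agent.S18.Defs
import Fermat.Agent.S18.Abs.CechBound
import Fermat.Agent.BAD.Glue.Basic

set_option autoImplicit false
set_option maxHeartbeats 400000

namespace Fermat.Agent.BAD.Glue

variable {F : Type*} [Field F]

section G6

/-- sums in `{y | y ^ m * h ∈ B}` (root closed `B`). -/
theorem add_mem_root {B : Subring F} {m : ℕ} (hm : 0 < m) (hr : ∀ y : F, y ^ m ∈ B → y ∈ B)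
    {h y z : F} (hy : y ^ m * h ∈ B) (hz : z ^ m * h ∈ B) : (y + z) ^ m * h ∈ B := by
  rw [add_pow, Finset.sum_mul]
  refine B.sum_mem fun j hj => ?_
  have hj' : j ≤ m := Nat.lt_succ_iff.1 (Finset.mem_range.1 hj)
  have ht : y ^ j * z ^ (m - j) * h ∈ B := by
    apply hr
    have : (y ^ j * z ^ (m - j) * h) ^ m = (y ^ m * h) ^ j * (z ^ m * h) ^ (m - j) := by
      have e : h ^ m = h ^ j * h ^ (m - j) := by rw [← pow_add]; congr 1; omega
      rw [mul_pow, mul_pow, mul_pow, mul_pow, e, ← pow_mul, ← pow_mul, ← pow_mul, ← pow_mul,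
        mul_comm j m, mul_comm (m - j) m]
      ring
    rw [this]
    exact B.mul_mem (B.pow_mem hy _) (B.pow_mem hz _)
  have : y ^ j * z ^ (m - j) * (m.choose j : F) * h
      = (m.choose j : F) * (y ^ j * z ^ (m - j) * h) := by ring
  rw [this]
  exact B.mul_mem (natCast_mem B _) ht

theorem mul_mem_root {B : Subring F} {m : ℕ} {h b y : F} (hb : b ∈ B) (hy : y ^ m * h ∈ B) :
    (b * y) ^ m * h ∈ B := by
  rw [mul_pow, mul_assoc]
  exact B.mul_mem (B.pow_mem hb _) hy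

/-- `{y | y ^ m * h ∈ B}` as a module over a subring `A₀ ≤ B`. -/
def rootSub (A₀ B : Subring F) (hle : A₀ ≤ B) (m : ℕ) (hm : 0 < m)
    (hr : ∀ y : F, y ^ m ∈ B → y ∈ B) (h : F) : Submodule A₀ F where
  carrier := {y | y ^ m * h ∈ B}
  zero_mem' := by
    show (0 : F) ^ m * h ∈ B
    rw [zero_pow hm.ne', zero_mul]; exact B.zero_mem
  add_mem' := fun hy hz => add_mem_root hm hr hy hz
  smul_mem' := fun a y hy => by
    show (a • y) ^ m * h ∈ B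
    rw [Subring.smul_def, smul_eq_mul]
    exact mul_mem_root (hle a.2) hy

/-- `{y | ∃ N, x ^ N * (y ^ m * h) ∈ B}` as a module over a subring `A₀ ≤ B`. -/
def rootSubAway (A₀ B : Subring F) (hle : A₀ ≤ B) (x : F) (hx : x ∈ B) (m : ℕ) (hm : 0 < m)
    (hr : ∀ y : F, y ^ m ∈ B → y ∈ B) (h : F) : Submodule A₀ F where
  carrier := {y | ∃ N : ℕ, x ^ N * (y ^ m * h) ∈ B}
  zero_mem' := ⟨0, by
    rw [zero_pow hm.ne', zero_mul, mul_zero]; exact B.zero_mem⟩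
  add_mem' := by
    rintro y z ⟨N, hN⟩ ⟨N', hN'⟩
    obtain ⟨k, rfl⟩ : ∃ k, m = k + 1 := ⟨m - 1, by omega⟩
    have h1 : (x ^ (N + N') * y) ^ (k + 1) * h ∈ B := by
      have : (x ^ (N + N') * y) ^ (k + 1) * h
          = (x ^ (N + N')) ^ k * x ^ N' * (x ^ N * (y ^ (k + 1) * h)) := by ring
      rw [this]
      exact B.mul_mem (B.mul_mem (B.pow_mem (B.pow_mem hx _) _) (B.pow_mem hx _)) hN
    have h2 : (x ^ (N + N') * z) ^ (k + 1) * h ∈ B := by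
      have : (x ^ (N + N') * z) ^ (k + 1) * h
          = (x ^ (N + N')) ^ k * x ^ N * (x ^ N' * (z ^ (k + 1) * h)) := by ring
      rw [this]
      exact B.mul_mem (B.mul_mem (B.pow_mem (B.pow_mem hx _) _) (B.pow_mem hx _)) hN'
    have h3 := add_mem_root hm hr h1 h2
    refine ⟨(N + N') * (k + 1), ?_⟩
    have : x ^ ((N + N') * (k + 1)) * ((y + z) ^ (k + 1) * h)
        = (x ^ (N + N') * y + x ^ (N + N') * z) ^ (k + 1) * h := by
      rw [← mul_add, mul_pow, ← pow_mul]; ring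
    rw [this]
    exact h3
  smul_mem' := by
    rintro a y ⟨N, hN⟩
    refine ⟨N, ?_⟩
    rw [Subring.smul_def, smul_eq_mul]
    have : x ^ N * (((a : F) * y) ^ m * h) = (a : F) ^ m * (x ^ N * (y ^ m * h)) := by ring
    rw [this]
    exact B.mul_mem (B.pow_mem (hle a.2) _) hN

/-- the root module of `B₁` is finitely generated over `A₀[x]`. -/
theorem exists_finset_rootSub {A₀ B₁ B₂ : Subring F} {x : F} (hc : S18.IsCover A₀ x B₁ B₂)
    {m : ℕ} (hm : 0 < m) (hr₁ : ∀ y : F, y ^ m ∈ B₁ → y ∈ B₁)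
    {h : F} (hne : ∃ a : F, a ≠ 0 ∧ a ^ m * h ∈ B₁) (hh0 : h ≠ 0) :
    ∃ s : Finset F, (∀ e ∈ s, e ^ m * h ∈ B₁) ∧
      ∀ y : F, y ^ m * h ∈ B₁ → y ∈ Submodule.span (Algebra.adjoin A₀ {x}) (s : Set F) := by
  classical
  obtain ⟨a, ha0, ha⟩ := hne
  have := hc.noeth
  set R := Algebra.adjoin A₀ {x} with hR
  have hRn : IsNoetherianRing R := isNoetherianRing_of_fg ⟨{x}, by simp [hR]⟩
  have hRB : ∀ r ∈ R, r ∈ B₁ := by
    intro r hr
    induction hr using Algebra.adjoin_induction with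
    | mem r hr =>
      obtain rfl : r = x := hr
      exact hc.x_mem
    | algebraMap c => exact hc.le₁ c.2
    | add r r' _ _ ih ih' => exact B₁.add_mem ih ih'
    | mul r r' _ _ ih ih' => exact B₁.mul_mem ih ih'
  obtain ⟨S, hSB, hS⟩ := hc.fin₁
  set M : Submodule R F := Submodule.span R (S : Set F) with hM
  have hMn : IsNoetherian R M := isNoetherian_span_of_finite R S.finite_toSet
  have hBM : ∀ b ∈ B₁, b ∈ M := by
    intro b hb
    have h1 : Submodule.span A₀ {y : F | ∃ (a : ℕ) (e : F), e ∈ S ∧ y = x ^ a * e}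
        ≤ M.restrictScalars A₀ := by
      rw [Submodule.span_le]
      rintro _ ⟨k, e, he, rfl⟩
      show x ^ k * e ∈ M
      have hxR : x ∈ R := Algebra.subset_adjoin rfl
      have : x ^ k * e = (⟨x ^ k, R.pow_mem hxR k⟩ : R) • e := rfl
      rw [this]
      exact M.smul_mem _ (Submodule.subset_span he)
    exact h1 (hS b hb)
  set d : F := a ^ (m - 1) * h with hd
  have hd0 : d ≠ 0 := mul_ne_zero (pow_ne_zero _ ha0) hh0
  have hdI : ∀ y : F, y ^ m * h ∈ B₁ → d * y ∈ B₁ := by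
    intro y hy
    apply hr₁
    obtain ⟨k, rfl⟩ : ∃ k, m = k + 1 := ⟨m - 1, by omega⟩
    have : (d * y) ^ (k + 1) = (a ^ (k + 1) * h) ^ k * (y ^ (k + 1) * h) := by
      rw [hd, Nat.add_sub_cancel]; ring
    rw [this]
    exact B₁.mul_mem (B₁.pow_mem ha _) hy
  let P : Submodule R F :=
    { carrier := {z | (z / d) ^ m * h ∈ B₁}
      zero_mem' := by
        show ((0 : F) / d) ^ m * h ∈ B₁
        rw [zero_div, zero_pow hm.ne', zero_mul]; exact B₁.zero_mem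
      add_mem' := by
        intro z z' hz hz'
        show ((z + z') / d) ^ m * h ∈ B₁
        rw [add_div]
        exact add_mem_root hm hr₁ hz hz'
      smul_mem' := by
        intro r z hz
        show ((r • z) / d) ^ m * h ∈ B₁
        have : (r • z) / d = (r : F) * (z / d) := by
          rw [Subalgebra.smul_def, smul_eq_mul, mul_div_assoc]
        rw [this]
        exact mul_mem_root (hRB r r.2) hz }
  have hPM : P ≤ M := by
    intro z hz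
    have h1 : d * (z / d) ∈ B₁ := hdI _ hz
    rw [mul_div_cancel₀ _ hd0] at h1
    exact hBM z h1
  obtain ⟨G, hG⟩ : P.FG := isNoetherian_submodule.mp hMn P hPM
  refine ⟨G.image (fun g => d⁻¹ * g), ?_, ?_⟩
  · intro e he
    obtain ⟨g, hg, rfl⟩ := Finset.mem_image.mp he
    have : g ∈ P := hG ▸ Submodule.subset_span hg
    have h2 : (g / d) ^ m * h ∈ B₁ := this
    rwa [div_eq_inv_mul] at h2
  · intro y hy
    have hyP : d * y ∈ P := by
      show (d * y / d) ^ m * h ∈ B₁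
      rw [mul_div_cancel_left₀ _ hd0]; exact hy
    rw [← hG] at hyP
    have h3 := Submodule.mem_map_of_mem (f := LinearMap.mulLeft R d⁻¹) hyP
    rw [Submodule.map_span] at h3
    have h4 : (LinearMap.mulLeft R d⁻¹) (d * y) = y := by
      rw [LinearMap.mulLeft_apply, inv_mul_cancel_left₀ hd0]
    rw [h4] at h3
    rw [Finset.coe_image]
    exact h3

theorem exists_torsion_bound_root {A₀ B₁ B₂ : Subring F} {x : F} (hc : S18.IsCover A₀ x B₁ B₂)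
    {m : ℕ} (hm : 0 < m) (hr₁ : ∀ y : F, y ^ m ∈ B₁ → y ∈ B₁) (hr₂ : ∀ y : F, y ^ m ∈ B₂ → y ∈ B₂)
    {ϖ : F} (hϖ : ϖ ∈ A₀) {h : F} (hne : ∃ a : F, a ≠ 0 ∧ a ^ m * h ∈ B₁) (hh0 : h ≠ 0) :
    ∃ k0 : ℕ, ∀ y : F, (∃ N : ℕ, x ^ N * (y ^ m * h) ∈ B₁) → ∀ k : ℕ,
      (∃ y₁ y₂ : F, y₁ ^ m * h ∈ B₁ ∧ y₂ ^ m * h ∈ B₂ ∧ ϖ ^ k * y = y₁ + y₂) →
      ∃ y₁ y₂ : F, y₁ ^ m * h ∈ B₁ ∧ y₂ ^ m * h ∈ B₂ ∧ ϖ ^ k0 * y = y₁ + y₂ := by
  classical
  have hx0 := hc.x_ne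
  have := hc.noeth
  set I1 : Submodule A₀ F := rootSub A₀ B₁ hc.le₁ m hm hr₁ h with hI1
  set I2 : Submodule A₀ F := rootSub A₀ B₂ hc.le₂ m hm hr₂ h with hI2
  set I12 : Submodule A₀ F := rootSubAway A₀ B₁ hc.le₁ x hc.x_mem m hm hr₁ h with hI12
  have m1 : ∀ y, y ∈ I1 ↔ y ^ m * h ∈ B₁ := fun _ => Iff.rfl
  have m2 : ∀ y, y ∈ I2 ↔ y ^ m * h ∈ B₂ := fun _ => Iff.rfl
  have m12 : ∀ y, y ∈ I12 ↔ ∃ N : ℕ, x ^ N * (y ^ m * h) ∈ B₁ := fun _ => Iff.rfl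
  obtain ⟨s, hsI, hs⟩ := exists_finset_rootSub hc hm hr₁ hne hh0
  obtain ⟨k0, hk0⟩ := S18.Abs.exists_torsion_bound' (A0 := A₀) x hx0 ⟨ϖ, hϖ⟩ I1 I2 I12
    (fun y hy => ⟨0, by simpa using (m1 y).mp hy⟩)
    (fun y hy => mul_mem_root hc.x_mem hy)
    (fun y hy => mul_mem_root hc.inv_mem hy)
    s (fun y hy => hs y hy) hsI
    (by
      intro y hy
      obtain ⟨N, hN⟩ := (m12 y).mp hy
      refine ⟨N, (m1 _).mpr ?_⟩
      obtain ⟨k, rfl⟩ : ∃ k, m = k + 1 := ⟨m - 1, by omega⟩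
      have : (x ^ N * y) ^ (k + 1) * h = (x ^ N) ^ k * (x ^ N * (y ^ (k + 1) * h)) := by ring
      rw [this]
      exact B₁.mul_mem (B₁.pow_mem (B₁.pow_mem hc.x_mem _) _) hN)
    (by
      intro y hy
      obtain ⟨N, hN⟩ := (m12 y).mp hy
      obtain ⟨M, hM⟩ := hc.overlap₁ _ hN
      refine ⟨M, (m2 _).mpr ?_⟩
      obtain ⟨k, rfl⟩ : ∃ k, m = k + 1 := ⟨m - 1, by omega⟩
      have : (x⁻¹ ^ M * y) ^ (k + 1) * h
          = x⁻¹ ^ (M * k + N) * (x⁻¹ ^ M * (x ^ N * (y ^ (k + 1) * h))) := by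
        have e : x⁻¹ ^ N * x ^ N = 1 := by rw [← mul_pow, inv_mul_cancel₀ hx0, one_pow]
        calc (x⁻¹ ^ M * y) ^ (k + 1) * h
            = x⁻¹ ^ (M * k) * x⁻¹ ^ M * (y ^ (k + 1) * h) * 1 := by ring
          _ = x⁻¹ ^ (M * k) * x⁻¹ ^ M * (y ^ (k + 1) * h) * (x⁻¹ ^ N * x ^ N) := by rw [e]
          _ = _ := by ring
      rw [this]
      exact B₂.mul_mem (B₂.pow_mem hc.inv_mem _) hM)
  have hsup : ∀ z : F, z ∈ I1 ⊔ I2 ↔
      ∃ y₁ y₂ : F, y₁ ^ m * h ∈ B₁ ∧ y₂ ^ m * h ∈ B₂ ∧ z = y₁ + y₂ := by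
    intro z
    rw [Submodule.mem_sup]
    constructor
    · rintro ⟨y₁, h1, y₂, h2, rfl⟩
      exact ⟨y₁, y₂, h1, h2, rfl⟩
    · rintro ⟨y₁, y₂, h1, h2, rfl⟩
      exact ⟨y₁, h1, y₂, h2, rfl⟩
  have hsmul : ∀ (k : ℕ) (y : F), ((⟨ϖ, hϖ⟩ : A₀) ^ k) • y = ϖ ^ k * y := by
    intro k y
    rw [Subring.smul_def, smul_eq_mul]
    rfl
  refine ⟨k0, fun y hy k hk => ?_⟩
  rw [← hsup, ← hsmul] at hk ⊢
  exact hk0 y hy k hk

end G6

end Fermat.Agent.BAD.Glue
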