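/-
BAD / Glue, node G4 (owner helper258): multiplicative Newton iteration.
-/
import Mathlib
import Fermat.Agent.BAD.Glue.Defs
import Fermat.Agent.BAD.Glue.Basic

set_option autoImplicit false

namespace Fermat.Agent.BAD.Glue

variable {F : Type*} [Field F] {ι : Type*}

theorem one_add_pow_expand {R : Type*} [CommRing R] (y : R) (m : ℕ) :
    ∃ r : R, (1 + y) ^ m = 1 + (m : R) * y + r * y ^ 2 := by
  induction m with
  | zero => exact ⟨0, by simp⟩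
  | succ m ih =>
    obtain ⟨r, hr⟩ := ih
    refine ⟨(m : R) + r + r * y, ?_⟩
    rw [pow_succ, hr]
    push_cast
    ring

theorem newton_mul_identity {R : Type*} [CommRing R] (e minv : R) (m : ℕ)
    (hm : (m : R) * minv = 1) : ∃ z : R, (1 + e) * (1 - e * minv) ^ m - 1 = e ^ 2 * z := by
  obtain ⟨r, hr⟩ := one_add_pow_expand (-(e * minv)) m
  refine ⟨-1 + (1 + e) * r * minv ^ 2, ?_⟩
  rw [sub_eq_add_neg 1 (e * minv), hr]
  linear_combination (-(1 + e) * e) * hm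

/-- the error term lies in all the maximal ideals. -/
theorem newton_err_mem {O : ValuationSubring F} {m : ℕ} {h a : F} (hh : h - 1 ∈ maxI O)
    (ha1 : a - 1 ∈ maxI O) : a ^ m * h - 1 ∈ maxI O := by
  have h1 : a ^ m * h - 1 = (a ^ m - 1) * h + (h - 1) := by ring
  rw [h1]
  exact (maxI O).add_mem (mul_mem_maxI' (pow_sub_one_mem ha1 m) (unit_of_sub_one_mem hh).1) hh

/-- one step of the multiplicative Newton iteration. -/
theorem newton_mul_step {O : ι → ValuationSubring F} {ϖ : F} {m : ℕ} {B : Subring F}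
    (hB : IsMChart O ϖ m B) (hmF : (m : F) ≠ 0)
    {h : F} (hh : ∀ i, h - 1 ∈ maxI (O i)) {a : F} (ha : a ^ m * h ∈ B)
    (ha1 : ∀ i, a - 1 ∈ maxI (O i)) :
    ∃ a' : F, a' ^ m * h ∈ B ∧ (∀ i, a' - 1 ∈ maxI (O i)) ∧
      ∃ z ∈ B, a' ^ m * h - 1 = (a ^ m * h - 1) ^ 2 * z := by
  have heB : a ^ m * h - 1 ∈ B := B.sub_mem ha B.one_mem
  obtain ⟨z, hz⟩ := newton_mul_identity (R := B) ⟨a ^ m * h - 1, heB⟩ ⟨(m : F)⁻¹, hB.minv⟩ m (by
    apply Subtype.ext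
    simp [hmF])
  have hz' : (1 + (a ^ m * h - 1)) * (1 - (a ^ m * h - 1) * (m : F)⁻¹) ^ m - 1
      = (a ^ m * h - 1) ^ 2 * (z : F) := by
    have := congrArg Subtype.val hz
    simpa using this
  have hkey : (a * (1 - (a ^ m * h - 1) * (m : F)⁻¹)) ^ m * h - 1
      = (a ^ m * h - 1) ^ 2 * (z : F) := by
    rw [← hz', mul_pow]
    ring
  refine ⟨a * (1 - (a ^ m * h - 1) * (m : F)⁻¹), ?_, ?_, z, z.2, hkey⟩
  · have h1 : (a * (1 - (a ^ m * h - 1) * (m : F)⁻¹)) ^ m * h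
        = (a ^ m * h - 1) ^ 2 * (z : F) + 1 := by
      rw [← hkey]; ring
    rw [h1]
    exact B.add_mem (B.mul_mem (B.pow_mem heB 2) z.2) B.one_mem
  · intro i
    have h1 : a * (1 - (a ^ m * h - 1) * (m : F)⁻¹) - 1
        = (a - 1) - (a * (m : F)⁻¹) * (a ^ m * h - 1) := by ring
    rw [h1]
    refine (maxI (O i)).sub_mem (ha1 i) (mul_mem_maxI ?_ (newton_err_mem (hh i) (ha1 i)))
    exact (O i).mul_mem _ _ (unit_of_sub_one_mem (ha1 i)).1 (hB.le i _ hB.minv)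

/-- `j` steps of the multiplicative Newton iteration. -/
theorem newton_mul_iter {O : ι → ValuationSubring F} {ϖ : F} {m : ℕ} {B : Subring F}
    (hB : IsMChart O ϖ m B) (hmF : (m : F) ≠ 0)
    {h : F} (hh : ∀ i, h - 1 ∈ maxI (O i)) {a : F} (ha : a ^ m * h ∈ B)
    (ha1 : ∀ i, a - 1 ∈ maxI (O i)) (j : ℕ) :
    ∃ a' : F, a' ^ m * h ∈ B ∧ (∀ i, a' - 1 ∈ maxI (O i)) ∧
      ∃ z ∈ B, a' ^ m * h - 1 = (a ^ m * h - 1) ^ (2 ^ j) * z := by
  induction j with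
  | zero => exact ⟨a, ha, ha1, 1, B.one_mem, by simp⟩
  | succ j ih =>
    obtain ⟨b, hb, hb1, z, hz, hbz⟩ := ih
    obtain ⟨b', hb', hb1', z', hz', hbz'⟩ := newton_mul_step hB hmF hh hb hb1
    refine ⟨b', hb', hb1', z ^ 2 * z', B.mul_mem (B.pow_mem hz 2) hz', ?_⟩
    rw [hbz', hbz, pow_succ 2 j, pow_mul]
    ring

theorem newton_mul {O : ι → ValuationSubring F} {ϖ : F} {m : ℕ} {B : Subring F}
    (hO : IsVertFam O ϖ) (hB : IsMChart O ϖ m B) (hm : 0 < m) (hmF : (m : F) ≠ 0)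
    {h : F} (hh : ∀ i, h - 1 ∈ maxI (O i)) {a : F} (ha : a ^ m * h ∈ B)
    (ha1 : ∀ i, a - 1 ∈ maxI (O i)) (k : ℕ) :
    ∃ a' : F, a' ^ m * h ∈ B ∧ (∀ i, a' - 1 ∈ maxI (O i)) ∧
      ∀ i, (a' ^ m * h - 1) / ϖ ^ k ∈ O i := by
  obtain ⟨E, hE⟩ := hO.bdd
  obtain ⟨a', ha', ha1', z, hz, hez⟩ := newton_mul_iter hB hmF hh ha ha1 (E * k)
  refine ⟨a', ha', ha1', fun i => ?_⟩
  have hle : E * k ≤ 2 ^ (E * k) := Nat.lt_two_pow_self.le
  have he0 : a ^ m * h - 1 ∈ maxI (O i) := newton_err_mem (hh i) (ha1 i)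
  have h1 : (a' ^ m * h - 1) / ϖ ^ k
      = ((a ^ m * h - 1) ^ E / ϖ) ^ k * (a ^ m * h - 1) ^ (2 ^ (E * k) - E * k) * z := by
    rw [hez]
    conv_lhs => rw [← Nat.add_sub_cancel' hle, pow_add, pow_mul]
    rw [div_pow]
    ring
  rw [h1]
  exact (O i).mul_mem _ _ ((O i).mul_mem _ _ ((O i).pow_mem (hE i _ he0) k)
    ((O i).pow_mem (maxI_le he0) _)) (hB.le i _ hz)

end Fermat.Agent.BAD.Glue
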