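/-
BAD / Glue, node G2 (core): the local statement inside `F`, with the ring-theoretic gluing lemma
(node G1, `exists_common_lift`) taken as a hypothesis for the local ring `B_𝔫`.
Owner: helper279.
-/
import Mathlib
import Fermat.Agent.BAD.Glue.Basic

set_option autoImplicit false

namespace Fermat.Agent.BAD.Glue

open IsLocalRing

variable {F : Type*} [Field F] {ι : Type*}

/-- Valuation rings are closed under roots. -/
theorem mem_valSub_of_pow_mem {O : ValuationSubring F} {x : F} {m : ℕ} (hm : 0 < m)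
    (hx : x ^ m ∈ O) : x ∈ O := by
  rw [← O.valuation_le_one_iff] at hx ⊢
  rw [map_pow] at hx
  exact (pow_le_one_iff hm.ne').mp hx

section Loc

variable {B : Subring F} (𝔫 : Ideal B) [𝔫.IsPrime]

theorem coe_ne_zero_of_notMem {𝔫 : Ideal B} {s : B} (hs : s ∉ 𝔫) : (s : F) ≠ 0 := by
  intro h0
  apply hs
  have : s = 0 := Subtype.ext h0
  rw [this]
  exact 𝔫.zero_mem

/-- The canonical map `B_𝔫 → F`. -/
noncomputable def locMap : Localization.AtPrime 𝔫 →+* F :=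
  IsLocalization.lift (M := 𝔫.primeCompl) (g := B.subtype) (by
    rintro ⟨s, hs⟩
    exact IsUnit.mk0 _ (coe_ne_zero_of_notMem hs))

theorem locMap_algebraMap (b : B) :
    locMap 𝔫 (algebraMap B (Localization.AtPrime 𝔫) b) = (b : F) :=
  IsLocalization.lift_eq _ _

theorem locMap_mk' (a : B) (s : 𝔫.primeCompl) :
    locMap 𝔫 (IsLocalization.mk' (Localization.AtPrime 𝔫) a s) = (a : F) / ((s : B) : F) := by
  rw [eq_div_iff (coe_ne_zero_of_notMem s.2), ← locMap_algebraMap 𝔫 (s : B), ← map_mul,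
    IsLocalization.mk'_spec, locMap_algebraMap]

variable {𝔫} {O : ValuationSubring F}

omit [𝔫.IsPrime] in
theorem Through.inv_mem (hT : Through O 𝔫) {s : B} (hs : s ∉ 𝔫) : ((s : F))⁻¹ ∈ O :=
  inv_mem_of_notMem_maxI fun h => hs (hT s h)

theorem Through.locMap_mem (hT : Through O 𝔫) (hle : ∀ b ∈ B, b ∈ O)
    (r : Localization.AtPrime 𝔫) : locMap 𝔫 r ∈ O := by
  obtain ⟨⟨a, s⟩, rfl⟩ := IsLocalization.mk'_surjective 𝔫.primeCompl r
  rw [locMap_mk', div_eq_mul_inv]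
  exact O.mul_mem _ _ (hle _ a.2) (hT.inv_mem s.2)

/-- The centre of `O` on `B_𝔫`. -/
def Through.centre (hT : Through O 𝔫) (hle : ∀ b ∈ B, b ∈ O) :
    Ideal (Localization.AtPrime 𝔫) where
  carrier := {r | locMap 𝔫 r ∈ maxI O}
  add_mem' := by
    intro a b ha hb
    show locMap 𝔫 (a + b) ∈ maxI O
    rw [map_add]
    exact (maxI O).add_mem ha hb
  zero_mem' := by
    show locMap 𝔫 0 ∈ maxI O
    rw [map_zero]
    exact (maxI O).zero_mem
  smul_mem' := by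
    intro c x hx
    show locMap 𝔫 (c • x) ∈ maxI O
    rw [smul_eq_mul, map_mul]
    exact mul_mem_maxI (hT.locMap_mem hle c) hx

theorem Through.mem_centre (hT : Through O 𝔫) (hle : ∀ b ∈ B, b ∈ O)
    {r : Localization.AtPrime 𝔫} : r ∈ hT.centre hle ↔ locMap 𝔫 r ∈ maxI O := Iff.rfl

theorem Through.centre_le (hT : Through O 𝔫) (hle : ∀ b ∈ B, b ∈ O) :
    hT.centre hle ≤ maximalIdeal (Localization.AtPrime 𝔫) := by
  apply IsLocalRing.le_maximalIdeal
  intro htop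
  have h1 : (1 : Localization.AtPrime 𝔫) ∈ hT.centre hle := htop ▸ Submodule.mem_top
  rw [hT.mem_centre, map_one] at h1
  exact one_notMem_maxI h1

theorem Primary2.exists_pow_le {O O' : ValuationSubring F} (hT : Through O 𝔫)
    (hT' : Through O' 𝔫) (hle : ∀ b ∈ B, b ∈ O) (hle' : ∀ b ∈ B, b ∈ O')
    (hp : Primary2 O O' 𝔫) :
    ∃ N : ℕ, maximalIdeal (Localization.AtPrime 𝔫) ^ N ≤ hT.centre hle ⊔ hT'.centre hle' := by
  obtain ⟨N, hN⟩ := hp
  refine ⟨N, ?_⟩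
  rw [← Localization.AtPrime.map_eq_maximalIdeal, ← Ideal.map_pow, Ideal.map_le_iff_le_comap]
  intro y hy
  obtain ⟨s, p, p', hs, hp, hp', hsy⟩ := hN y hy
  rw [Ideal.mem_comap]
  have hunit : IsUnit (algebraMap B (Localization.AtPrime 𝔫) s) :=
    (IsLocalization.AtPrime.isUnit_to_map_iff _ 𝔫 s).mpr hs
  rw [← Ideal.unit_mul_mem_iff_mem _ hunit, ← map_mul, hsy, map_add]
  refine Ideal.add_mem _ (Ideal.mem_sup_left ?_) (Ideal.mem_sup_right ?_)
  · rw [hT.mem_centre, locMap_algebraMap]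
    exact hp
  · rw [hT'.mem_centre, locMap_algebraMap]
    exact hp'

end Loc

/-- An element of `B` outside `𝔫` which lies in the centre of all the components which do not pass
through `𝔫`. -/
theorem exists_notMem_mem_maxI [Finite ι] {O : ι → ValuationSubring F} {B : Subring F}
    (hle : ∀ i, ∀ b ∈ B, b ∈ O i) (𝔫 : Ideal B) [𝔫.IsPrime] :
    ∃ t : B, t ∉ 𝔫 ∧ ∀ i, ¬ Through (O i) 𝔫 → (t : F) ∈ maxI (O i) := by
  classical
  have := Fintype.ofFinite ι
  have hex : ∀ i, ∃ t : B, t ∉ 𝔫 ∧ (¬ Through (O i) 𝔫 → (t : F) ∈ maxI (O i)) := by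
    intro i
    by_cases hT : Through (O i) 𝔫
    · exact ⟨1, fun h => (‹𝔫.IsPrime›).ne_top ((Ideal.eq_top_iff_one _).mpr h),
        fun h => absurd hT h⟩
    · have hT' := hT
      rw [Through] at hT'
      push Not at hT'
      obtain ⟨b, hb, hbn⟩ := hT'
      exact ⟨b, hbn, fun _ => hb⟩
  choose t ht ht' using hex
  refine ⟨∏ i, t i, ?_, fun i hi => ?_⟩
  · intro hmem
    obtain ⟨i, -, hi⟩ := (Ideal.IsPrime.prod_mem_iff).mp hmem
    exact ht i hi
  · obtain ⟨e, he⟩ := Finset.dvd_prod_of_mem t (Finset.mem_univ i)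
    rw [he, Subring.coe_mul]
    exact mul_mem_maxI' (ht' i hi) (hle i _ e.2)

/-- Node G2 with the gluing lemma for `B_𝔫` as a hypothesis. -/
theorem exists_congr_of_hasVal_of_lift [Finite ι] {O : ι → ValuationSubring F} {B : Subring F}
    (hle : ∀ i, ∀ b ∈ B, b ∈ O i) {m : ℕ} (hm : 0 < m)
    {q : ℕ} (hqO : ∀ i, (q : F) ∈ maxI (O i))
    {h : F} (hh : ∀ i, h - 1 ∈ maxI (O i)) (𝔫 : Ideal B) [𝔫.IsPrime]
    (hprim : ∀ i j, i ≠ j → Through (O i) 𝔫 → Through (O j) 𝔫 → Primary2 (O i) (O j) 𝔫)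
    {g : F} {c : B ⧸ 𝔫} (hg : LocRoot 𝔫 m h g) (hc : ∀ i, Through (O i) 𝔫 → HasVal (O i) 𝔫 g c)
    (hlift : ∀ P : {i // Through (O i) 𝔫} → Ideal (Localization.AtPrime 𝔫),
      (∀ i j, i ≠ j → ∃ N : ℕ, maximalIdeal (Localization.AtPrime 𝔫) ^ N ≤ P i ⊔ P j) →
      (∀ i, (q : Localization.AtPrime 𝔫) ∈ P i) →
      ∀ ε : Localization.AtPrime 𝔫, IsUnit ε →
      ∀ r : {i // Through (O i) 𝔫} → Localization.AtPrime 𝔫, (∀ i, r i ^ m - ε ∈ P i) →
      (∀ i j, r i - r j ∈ maximalIdeal (Localization.AtPrime 𝔫)) →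
      ∃ δ : Localization.AtPrime 𝔫, ∀ i, δ - r i ∈ P i) :
    ∃ (y : F) (b : B), y ^ m * h ∈ B ∧ b ∉ 𝔫 ∧ ∀ i, y - b ∈ maxI (O i) := by
  obtain ⟨t, htn, ht⟩ := exists_notMem_mem_maxI hle 𝔫
  by_cases hne : ∃ i, Through (O i) 𝔫
  swap
  · -- no component passes through `𝔫`
    push Not at hne
    refine ⟨0, t, ?_, htn, fun i => ?_⟩
    · rw [zero_pow hm.ne', zero_mul]
      exact B.zero_mem
    · rw [zero_sub]
      exact (maxI (O i)).neg_mem (ht i (hne i))
  obtain ⟨i₀, hi₀⟩ := hne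
  set R := Localization.AtPrime 𝔫 with hR
  obtain ⟨a, b, han, hbn, hab⟩ := hg
  have hb0 : (b : F) ≠ 0 := coe_ne_zero_of_notMem hbn
  -- the data on the branches
  choose r s hs hrs hval using fun i : {i // Through (O i) 𝔫} => hc i.1 i.2
  let P : {i // Through (O i) 𝔫} → Ideal R := fun i => i.2.centre (hle i.1)
  let ρ : {i // Through (O i) 𝔫} → R := fun i => IsLocalization.mk' R (r i) (⟨s i, hs i⟩ : 𝔫.primeCompl)
  let ε : R := IsLocalization.mk' R a (⟨b, hbn⟩ : 𝔫.primeCompl)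
  have hφρ : ∀ i, locMap 𝔫 (ρ i) = (r i : F) / (s i : F) := fun i => locMap_mk' 𝔫 _ _
  have hφε : locMap 𝔫 ε = g ^ m * h := by
    rw [show locMap 𝔫 ε = (a : F) / (b : F) from locMap_mk' 𝔫 _ _, ← hab]
    field_simp
  have hgρ : ∀ i : {i // Through (O i) 𝔫}, g - locMap 𝔫 (ρ i) ∈ maxI (O i.1) := by
    intro i
    have hs0 : (s i : F) ≠ 0 := coe_ne_zero_of_notMem (hs i)
    have : g - locMap 𝔫 (ρ i) = ((s i : F))⁻¹ * ((s i : F) * g - r i) := by
      rw [hφρ]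
      field_simp
    rw [this]
    exact mul_mem_maxI (i.2.inv_mem (hs i)) (hrs i)
  have hgO : ∀ i : {i // Through (O i) 𝔫}, g ∈ O i.1 := by
    intro i
    have := (O i.1).add_mem _ _ (maxI_le (hgρ i)) (i.2.locMap_mem (hle i.1) (ρ i))
    simpa using this
  have hεunit : IsUnit ε := (IsLocalization.AtPrime.isUnit_mk'_iff R 𝔫 a _).mpr han
  have hρε : ∀ i, ρ i ^ m - ε ∈ P i := by
    intro i
    show locMap 𝔫 (ρ i ^ m - ε) ∈ maxI (O i.1)
    rw [map_sub, map_pow, hφε]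
    have h1 : locMap 𝔫 (ρ i) ^ m - g ^ m ∈ maxI (O i.1) := by
      refine pow_sub_pow_mem ?_ (hgO i) m
      have := (maxI (O i.1)).neg_mem (hgρ i)
      rwa [neg_sub] at this
    have h2 : g ^ m * (h - 1) ∈ maxI (O i.1) :=
      mul_mem_maxI ((O i.1).pow_mem (hgO i) m) (hh i.1)
    have h3 : locMap 𝔫 (ρ i) ^ m - g ^ m * h = (locMap 𝔫 (ρ i) ^ m - g ^ m) - g ^ m * (h - 1) := by
      ring
    rw [h3]
    exact (maxI (O i.1)).sub_mem h1 h2
  have hρρ : ∀ i j, ρ i - ρ j ∈ maximalIdeal R := by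
    intro i j
    show IsLocalization.mk' R (r i) (⟨s i, hs i⟩ : 𝔫.primeCompl) -
      IsLocalization.mk' R (r j) (⟨s j, hs j⟩ : 𝔫.primeCompl) ∈ maximalIdeal R
    rw [← IsLocalization.mk'_sub, IsLocalization.AtPrime.mk'_mem_maximal_iff R 𝔫]
    rw [← Ideal.Quotient.eq_zero_iff_mem, map_sub, map_mul, map_mul, hval i, hval j]
    ring
  have hprimP : ∀ i j, i ≠ j → ∃ N : ℕ, maximalIdeal R ^ N ≤ P i ⊔ P j := by
    intro i j hij
    exact (hprim i.1 j.1 (fun h => hij (Subtype.ext h)) i.2 j.2).exists_pow_le i.2 j.2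
      (hle i.1) (hle j.1)
  have hqP : ∀ i, (q : R) ∈ P i := by
    intro i
    show locMap 𝔫 (q : R) ∈ maxI (O i.1)
    rw [map_natCast]
    exact hqO i.1
  obtain ⟨δ, hδ⟩ := hlift P hprimP hqP ε hεunit ρ hρε hρρ
  -- `δ` is a unit
  have hδunit : IsUnit δ := by
    by_contra hnu
    have hδm : δ ∈ maximalIdeal R := hnu
    have h1 : ρ ⟨i₀, hi₀⟩ ∈ maximalIdeal R := by
      have h2 := (Through.centre_le hi₀ (hle i₀)) (hδ ⟨i₀, hi₀⟩)
      have h3 := (maximalIdeal R).sub_mem hδm h2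
      simpa using h3
    have h4 : ρ ⟨i₀, hi₀⟩ ^ m ∈ maximalIdeal R := Ideal.pow_mem_of_mem _ h1 m hm
    have h5 := (Through.centre_le hi₀ (hle i₀)) (hρε ⟨i₀, hi₀⟩)
    have h6 := (maximalIdeal R).sub_mem h4 h5
    rw [sub_sub_cancel] at h6
    exact h6 hεunit
  obtain ⟨⟨d, σ⟩, hdσ⟩ := IsLocalization.mk'_surjective 𝔫.primeCompl δ
  have hdn : d ∉ 𝔫 := by
    rw [← hdσ] at hδunit
    exact (IsLocalization.AtPrime.isUnit_mk'_iff R 𝔫 d σ).mp hδunit
  have hσ0 : ((σ : B) : F) ≠ 0 := coe_ne_zero_of_notMem σ.2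
  have hφδ : locMap 𝔫 δ = (d : F) / ((σ : B) : F) := by
    rw [← hdσ]
    exact locMap_mk' 𝔫 _ _
  have hgδ : ∀ i : {i // Through (O i) 𝔫}, g - locMap 𝔫 δ ∈ maxI (O i.1) := by
    intro i
    have h1 : locMap 𝔫 (δ - ρ i) ∈ maxI (O i.1) := hδ i
    rw [map_sub] at h1
    have h2 := (maxI (O i.1)).sub_mem (hgρ i) h1
    have h3 : g - locMap 𝔫 (ρ i) - (locMap 𝔫 δ - locMap 𝔫 (ρ i)) = g - locMap 𝔫 δ := by ring
    rwa [h3] at h2
  obtain ⟨m', rfl⟩ : ∃ m', m = m' + 1 := ⟨m - 1, by omega⟩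
  refine ⟨(t : F) * (σ : B) * b * g, t * b * d, ?_, ?_, fun i => ?_⟩
  · have h1 : ((t : F) * (σ : B) * b * g) ^ (m' + 1) * h =
        (((t * (σ : B)) ^ (m' + 1) * b ^ m' * a : B) : F) := by
      push_cast
      rw [← hab]
      ring
    rw [h1]
    exact SetLike.coe_mem _
  · intro hmem
    rcases (‹𝔫.IsPrime›).mem_or_mem hmem with h1 | h1
    · rcases (‹𝔫.IsPrime›).mem_or_mem h1 with h2 | h2
      · exact htn h2
      · exact hbn h2
    · exact hdn h1
  · by_cases hi : Through (O i) 𝔫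
    · have h1 : (t : F) * (σ : B) * b * g - ((t * b * d : B) : F) =
          (((t * b * (σ : B) : B)) : F) * (g - locMap 𝔫 δ) := by
        rw [hφδ]
        push_cast
        field_simp
      rw [h1]
      exact mul_mem_maxI (hle i _ (SetLike.coe_mem _)) (hgδ ⟨i, hi⟩)
    · have hbg : (b : F) * g ∈ O i := by
        apply mem_valSub_of_pow_mem (Nat.succ_pos m')
        obtain ⟨-, hhinv, hh0⟩ := unit_of_sub_one_mem (hh i)
        have h1 : ((b : F) * g) ^ (m' + 1) = (((b ^ m' * a : B)) : F) * h⁻¹ := by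
          push_cast
          rw [← hab]
          field_simp
          ring
        rw [h1]
        exact (O i).mul_mem _ _ (hle i _ (SetLike.coe_mem _)) hhinv
      have h1 : (t : F) * (σ : B) * b * g - ((t * b * d : B) : F) =
          (t : F) * (((σ : B) : F) * ((b : F) * g) - ((b * d : B) : F)) := by
        push_cast
        ring
      rw [h1]
      refine mul_mem_maxI' (ht i hi) ((O i).sub_mem ?_ (hle i _ (SetLike.coe_mem _)))
      exact (O i).mul_mem _ _ (hle i _ (SetLike.coe_mem _)) hbg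

end Fermat.Agent.BAD.Glue
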