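/-
BAD toolkit, gluing block, node G1 (statements by helper65): the planar multiple point is harmless.
Pure ring theory.
-/
import Mathlib

set_option autoImplicit false

namespace Fermat.Agent.BAD.Glue

open IsLocalRing

section G1

variable {R : Type*} [CommRing R]

/-- `(P + I)(P + J) ⊆ P + (I ∩ J)` -/
theorem RingLemma.sup_mul_sup_le (P I J : Ideal R) : (P ⊔ I) * (P ⊔ J) ≤ P ⊔ (I ⊓ J) := by
  rw [Ideal.mul_le]
  intro a ha b hb
  obtain ⟨p, hp, u, hu, rfl⟩ := Submodule.mem_sup.mp ha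
  obtain ⟨p', hp', v, hv, rfl⟩ := Submodule.mem_sup.mp hb
  refine Submodule.mem_sup.mpr ⟨p * (p' + v) + u * p', ?_, u * v, ?_, by ring⟩
  · exact P.add_mem (P.mul_mem_right _ hp) (P.mul_mem_left _ hp')
  · exact ⟨I.mul_mem_right _ hu, J.mul_mem_left _ hv⟩

/-- a power of `M` lies in `P i + ⋂_{j ∈ s} P j` when `i ∉ s` -/
theorem RingLemma.exists_pow_le_sup_inf {ι : Type*} (M : Ideal R) (P : ι → Ideal R) (i : ι)
    (hprim : ∀ j, i ≠ j → ∃ N : ℕ, M ^ N ≤ P i ⊔ P j) (s : Finset ι) (hs : i ∉ s) :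
    ∃ N : ℕ, M ^ N ≤ P i ⊔ s.inf P := by
  classical
  induction s using Finset.induction_on with
  | empty => exact ⟨0, by simp⟩
  | insert j s hj ih =>
    have hij : i ≠ j := fun h => hs (h ▸ Finset.mem_insert_self _ _)
    obtain ⟨N', hN'⟩ := ih (fun h => hs (Finset.mem_insert_of_mem h))
    obtain ⟨N₁, hN₁⟩ := hprim j hij
    refine ⟨N₁ + N', ?_⟩
    rw [pow_add, Finset.inf_insert]
    exact (Ideal.mul_mono hN₁ hN').trans (RingLemma.sup_mul_sup_le _ _ _)

variable [IsLocalRing R] {ι : Type*} [Finite ι]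

/-- conductor: tuples of elements of a high power of the maximal ideal glue. -/
theorem exists_lift_of_mem_pow (P : ι → Ideal R)
    (hprim : ∀ i j, i ≠ j → ∃ N : ℕ, maximalIdeal R ^ N ≤ P i ⊔ P j) :
    ∃ N : ℕ, ∀ x : ι → R, (∀ i, x i ∈ maximalIdeal R ^ N) → ∃ y : R, ∀ i, y - x i ∈ P i := by
  classical
  cases nonempty_fintype ι
  have h1 : ∀ i, ∃ N : ℕ, maximalIdeal R ^ N ≤ P i ⊔ (Finset.univ.erase i).inf P := fun i =>
    RingLemma.exists_pow_le_sup_inf (maximalIdeal R) P i (hprim i) _ (Finset.notMem_erase i _)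
  choose Ni hNi using h1
  refine ⟨∑ i, Ni i, fun x hx => ?_⟩
  have h2 : ∀ i, ∃ p ∈ P i, ∃ z ∈ (Finset.univ.erase i).inf P, p + z = x i := by
    intro i
    apply Submodule.mem_sup.mp
    apply hNi i
    exact Ideal.pow_le_pow_right (Finset.single_le_sum (fun _ _ => Nat.zero_le _)
      (Finset.mem_univ i)) (hx i)
  choose p hp z hz hpz using h2
  refine ⟨∑ i, z i, fun i => ?_⟩
  rw [← Finset.add_sum_erase _ _ (Finset.mem_univ i), ← hpz i]
  have h3 : z i + ∑ j ∈ Finset.univ.erase i, z j - (p i + z i) =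
      ∑ j ∈ Finset.univ.erase i, z j - p i := by ring
  rw [h3]
  refine (P i).sub_mem ((P i).sum_mem fun j hj => ?_) (hp i)
  have hji : j ≠ i := Finset.ne_of_mem_erase hj
  have h4 : (Finset.univ.erase j).inf P ≤ P i :=
    Finset.inf_le (Finset.mem_erase.mpr ⟨hji.symm, Finset.mem_univ i⟩)
  exact h4 (hz j)

/-- **Gluing lemma.** -/
theorem exists_common_lift (P : ι → Ideal R)
    (hprim : ∀ i j, i ≠ j → ∃ N : ℕ, maximalIdeal R ^ N ≤ P i ⊔ P j)
    {q : ℕ} (hq : q.Prime) (hqP : ∀ i, (q : R) ∈ P i) {m : ℕ} (hqm : q.Coprime m)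
    (ε : R) (hε : IsUnit ε) (r : ι → R) (hr : ∀ i, r i ^ m - ε ∈ P i)
    (hval : ∀ i j, r i - r j ∈ maximalIdeal R) :
    ∃ δ : R, ∀ i, δ - r i ∈ P i := by
  classical
  by_cases hall : ∀ i, P i = ⊤
  · exact ⟨0, fun i => by rw [hall i]; exact Submodule.mem_top⟩
  push Not at hall
  obtain ⟨i₀, hi₀⟩ := hall
  have hPm : P i₀ ≤ maximalIdeal R := le_maximalIdeal hi₀
  have hm0 : m ≠ 0 := by
    rintro rfl
    rw [Nat.coprime_zero_right] at hqm
    exact hq.one_lt.ne' hqm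
  -- `lam = r i₀` is a unit
  have hlam : IsUnit (r i₀) := by
    by_contra hnu
    have h1 : r i₀ ∈ maximalIdeal R := (mem_maximalIdeal _).mpr hnu
    have h2 : r i₀ ^ m ∈ maximalIdeal R := Ideal.pow_mem_of_mem _ h1 m (Nat.pos_of_ne_zero hm0)
    have h3 : ε ∈ maximalIdeal R := by
      have := (maximalIdeal R).sub_mem h2 (hPm (hr i₀))
      rwa [sub_sub_cancel] at this
    exact (mem_maximalIdeal _).mp h3 hε
  obtain ⟨lam, hlam'⟩ := hlam
  set li : R := ((lam⁻¹ : Rˣ) : R) with hli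
  have hlli : r i₀ * li = 1 := by rw [← hlam', hli]; exact lam.mul_inv
  set ρ : ι → R := fun i => r i * li with hρ
  have hρ1 : ∀ i, ρ i - 1 ∈ maximalIdeal R := by
    intro i
    have : ρ i - 1 = (r i - r i₀) * li := by
      rw [sub_mul, hlli]
    rw [this]
    exact Ideal.mul_mem_right _ _ (hval i i₀)
  obtain ⟨N, hN⟩ := exists_lift_of_mem_pow P hprim
  set Q : ℕ := q ^ (N + 1) with hQ
  have hQN : N ≤ Q := by
    have : N + 1 < q ^ (N + 1) := Nat.lt_pow_self hq.one_lt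
    omega
  have hQ1 : 1 < Q := Nat.one_lt_pow (Nat.succ_ne_zero N) hq.one_lt
  obtain ⟨y₀, hy₀⟩ := hN (fun i => (ρ i - 1) ^ Q) (fun i =>
    Ideal.pow_le_pow_right hQN (Ideal.pow_mem_pow (hρ1 i) Q))
  -- `y = 1 + y₀` is congruent to `ρ i ^ Q`
  have hyρ : ∀ i, (1 + y₀) - ρ i ^ Q ∈ P i := by
    intro i
    obtain ⟨t, ht⟩ := exists_add_pow_prime_pow_eq hq (ρ i - 1) 1 (N + 1)
    rw [sub_add_cancel, one_pow] at ht
    have : (1 + y₀) - ρ i ^ Q = (y₀ - (ρ i - 1) ^ Q) - (q : R) * ((ρ i - 1) * 1 * t) := by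
      rw [hQ, ht]
      ring
    rw [this]
    exact (P i).sub_mem (hy₀ i) ((P i).mul_mem_right _ (hqP i))
  have hyu : IsUnit (1 + y₀) := by
    have h1 : y₀ ∈ maximalIdeal R := by
      have h2 : (ρ i₀ - 1) ^ Q ∈ maximalIdeal R :=
        Ideal.pow_mem_of_mem _ (hρ1 i₀) Q (by omega)
      have := (maximalIdeal R).add_mem (hPm (hy₀ i₀)) h2
      rwa [sub_add_cancel] at this
    by_contra hnu
    have h3 : (1 + y₀) ∈ maximalIdeal R := (mem_maximalIdeal _).mpr hnu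
    have h4 : (1 : R) ∈ maximalIdeal R := by
      have := (maximalIdeal R).sub_mem h3 h1
      rwa [add_sub_cancel_right] at this
    exact (Ideal.ne_top_iff_one _).mp (maximalIdeal.isMaximal R).ne_top h4
  obtain ⟨yu, hyu'⟩ := hyu
  set yi : R := ((yu⁻¹ : Rˣ) : R) with hyi
  have hyyi : (1 + y₀) * yi = 1 := by rw [← hyu', hyi]; exact yu.mul_inv
  -- Bezout
  obtain ⟨a, -, ha⟩ := Nat.exists_mul_mod_eq_one_of_coprime
    (Nat.Coprime.pow_right (N + 1) hqm.symm : Nat.Coprime m Q) hQ1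
  have hab : m * a = Q * (m * a / Q) + 1 := by
    have := Nat.div_add_mod (m * a) Q
    rw [ha] at this
    exact this.symm
  set b : ℕ := m * a / Q with hb
  refine ⟨r i₀ * ((ε * li ^ m) ^ a * yi ^ b), fun i => ?_⟩
  rw [← Ideal.Quotient.eq]
  have e1 : Ideal.Quotient.mk (P i) ε = Ideal.Quotient.mk (P i) (r i) ^ m := by
    rw [← map_pow]
    exact (Ideal.Quotient.eq.mpr (hr i)).symm
  have e2 : Ideal.Quotient.mk (P i) (1 + y₀) = Ideal.Quotient.mk (P i) (ρ i) ^ Q := by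
    rw [← map_pow]
    exact Ideal.Quotient.eq.mpr (hyρ i)
  have e3 : Ideal.Quotient.mk (P i) (1 + y₀) * Ideal.Quotient.mk (P i) yi = 1 := by
    rw [← map_mul, hyyi, map_one]
  have e4 : Ideal.Quotient.mk (P i) (r i₀) * Ideal.Quotient.mk (P i) li = 1 := by
    rw [← map_mul, hlli, map_one]
  have e5 : Ideal.Quotient.mk (P i) (ρ i) =
      Ideal.Quotient.mk (P i) (r i) * Ideal.Quotient.mk (P i) li := map_mul _ _ _
  simp only [map_mul, map_pow]
  generalize Ideal.Quotient.mk (P i) (r i₀) = L at *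
  generalize Ideal.Quotient.mk (P i) li = L' at *
  generalize Ideal.Quotient.mk (P i) yi = Y' at *
  generalize Ideal.Quotient.mk (P i) (1 + y₀) = Y at *
  generalize Ideal.Quotient.mk (P i) (r i) = X at *
  generalize Ideal.Quotient.mk (P i) (ρ i) = Z at *
  generalize Ideal.Quotient.mk (P i) ε = E at *
  subst e1 e5
  have e6 : (X ^ m * L' ^ m) ^ a = (X * L') * ((X * L') ^ Q) ^ b := by
    rw [← mul_pow, ← pow_mul, hab, pow_succ, pow_mul, mul_comm]
  rw [e6, ← e2]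
  calc L * (X * L' * Y ^ b * Y' ^ b) = (L * L') * X * (Y * Y') ^ b := by ring
    _ = X := by rw [e4, e3, one_pow, one_mul, mul_one]

end G1

end Fermat.Agent.BAD.Glue
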