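/-
BAD / Glue, node G2: the local statement inside `F`.   Owner: helper279.
-/
import Mathlib
import Fermat.Agent.BAD.Glue.RingLemma
import Fermat.Agent.BAD.Glue.LocalGlueCore

set_option autoImplicit false

namespace Fermat.Agent.BAD.Glue

open IsLocalRing

variable {F : Type*} [Field F] {ι : Type*}

theorem exists_congr_of_hasVal [Finite ι] {O : ι → ValuationSubring F} {B : Subring F}
    (hle : ∀ i, ∀ b ∈ B, b ∈ O i) {m : ℕ} (hm : 0 < m)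
    {q : ℕ} (hq : q.Prime) (hqm : q.Coprime m) (hqO : ∀ i, (q : F) ∈ maxI (O i))
    {h : F} (hh : ∀ i, h - 1 ∈ maxI (O i)) (𝔫 : Ideal B) (h𝔫 : 𝔫.IsMaximal)
    (hprim : ∀ i j, i ≠ j → Through (O i) 𝔫 → Through (O j) 𝔫 → Primary2 (O i) (O j) 𝔫)
    {g : F} {c : B ⧸ 𝔫} (hg : LocRoot 𝔫 m h g) (hc : ∀ i, Through (O i) 𝔫 → HasVal (O i) 𝔫 g c) :
    ∃ (y : F) (b : B), y ^ m * h ∈ B ∧ b ∉ 𝔫 ∧ ∀ i, y - b ∈ maxI (O i) := by
  have : 𝔫.IsPrime := h𝔫.isPrime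
  exact exists_congr_of_hasVal_of_lift hle hm hqO hh 𝔫 hprim hg hc
    fun P hP hqP ε hε r hr hval => exists_common_lift P hP hq hqP hqm ε hε r hr hval

end Fermat.Agent.BAD.Glue
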