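/-
BAD / Glue, node G3: local to global on one chart.
-/
import Mathlib
import Fermat.Agent.BAD.Glue.Basic
import Fermat.Agent.BAD.Glue.LocalGlue

set_option autoImplicit false

namespace Fermat.Agent.BAD.Glue

variable {F : Type*} [Field F] {ι : Type*}

/-- sums in `{y | y ^ m * h ∈ B}` (root closed `B`); local copy used by `exists_section_one`. -/
theorem add_mem_root_section {B : Subring F} {m : ℕ} (hr : ∀ y : F, y ^ m ∈ B → y ∈ B)
    {h y z : F} (hy : y ^ m * h ∈ B) (hz : z ^ m * h ∈ B) : (y + z) ^ m * h ∈ B := by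
  rw [add_pow, Finset.sum_mul]
  refine B.sum_mem fun j hj => ?_
  have hj' : j ≤ m := Nat.lt_succ_iff.1 (Finset.mem_range.1 hj)
  have ht : y ^ j * z ^ (m - j) * h ∈ B := by
    apply hr
    have : (y ^ j * z ^ (m - j) * h) ^ m = (y ^ m * h) ^ j * (z ^ m * h) ^ (m - j) := by
      have e : h ^ m = h ^ j * h ^ (m - j) := by rw [← pow_add]; congr 1; omega
      rw [mul_pow, mul_pow, mul_pow, mul_pow, e, ← pow_mul, ← pow_mul, ← pow_mul, ← pow_mul,
        mul_comm j m, mul_comm (m - j) m]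
      ring
    rw [this]
    exact B.mul_mem (B.pow_mem hy _) (B.pow_mem hz _)
  have : y ^ j * z ^ (m - j) * (m.choose j : F) * h
      = (m.choose j : F) * (y ^ j * z ^ (m - j) * h) := by ring
  rw [this]
  exact B.mul_mem (natCast_mem B _) ht

theorem exists_section_one [Finite ι] {O : ι → ValuationSubring F} {ϖ : F} {m : ℕ} {B : Subring F}
    (hO : IsVertFam O ϖ) (hB : IsMChart O ϖ m B) (hm : 0 < m)
    {q : ℕ} (hq : q.Prime) (hqm : q.Coprime m) (hqO : ∀ i, (q : F) ∈ maxI (O i))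
    {h : F} (hh : ∀ i, h - 1 ∈ maxI (O i)) (hg : TrivGlue O B ϖ m h) :
    ∃ a : F, a ^ m * h ∈ B ∧ ∀ i, a - 1 ∈ maxI (O i) := by
  classical
  have hzero : (0 : F) ^ m * h ∈ B := by
    rw [zero_pow hm.ne', zero_mul]
    exact B.zero_mem
  let J : Ideal B :=
    { carrier := {b | ∃ y : F, y ^ m * h ∈ B ∧ ∀ i, y - (b : F) ∈ maxI (O i)}
      zero_mem' := ⟨0, hzero, fun i => by simp⟩
      add_mem' := by
        rintro a b ⟨y, hy, hya⟩ ⟨z, hz, hzb⟩
        refine ⟨y + z, add_mem_root_section hB.root hy hz, fun i => ?_⟩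
        have : y + z - ((a + b : B) : F) = (y - a) + (z - b) := by
          push_cast
          ring
        rw [this]
        exact (maxI (O i)).add_mem (hya i) (hzb i)
      smul_mem' := by
        rintro c b ⟨y, hy, hyb⟩
        refine ⟨c * y, ?_, fun i => ?_⟩
        · rw [mul_pow, mul_assoc]
          exact B.mul_mem (B.pow_mem c.2 _) hy
        · have : (c : F) * y - ((c • b : B) : F) = c * (y - b) := by
            simp [mul_sub]
          rw [this]
          exact mul_mem_maxI (hB.le i _ c.2) (hyb i) }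
  have hϖJ : (⟨ϖ, hB.unif_mem⟩ : B) ∈ J :=
    ⟨0, hzero, fun i => by simpa using (maxI (O i)).neg_mem (hO.mem i)⟩
  have hJtop : J = ⊤ := by
    by_contra hne
    obtain ⟨𝔫, h𝔫, hJ𝔫⟩ := Ideal.exists_le_maximal J hne
    have hϖ𝔫 : ∀ ϖB : B, (ϖB : F) = ϖ → ϖB ∈ 𝔫 := by
      intro ϖB hϖB
      have : ϖB = ⟨ϖ, hB.unif_mem⟩ := Subtype.ext hϖB
      rw [this]
      exact hJ𝔫 hϖJ
    obtain ⟨hprim, g, c, hgl, hgc⟩ := hg 𝔫 h𝔫 hϖ𝔫
    obtain ⟨y, b, hy, hb, hyb⟩ :=
      exists_congr_of_hasVal hB.le hm hq hqm hqO hh 𝔫 h𝔫 hprim hgl hgc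
    exact hb (hJ𝔫 ⟨y, hy, hyb⟩)
  have h1 : (1 : B) ∈ J := by
    rw [hJtop]
    trivial
  obtain ⟨a, ha, ha1⟩ := h1
  exact ⟨a, ha, fun i => by simpa using ha1 i⟩

end Fermat.Agent.BAD.Glue
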