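/-
BAD / Glue, node G5: approximate `m`-th roots are unique (one valuation ring).
Owner: helper181.
-/
import Mathlib
import Fermat.Agent.BAD.Glue.Defs
import Fermat.Agent.BAD.Glue.Basic

set_option autoImplicit false

namespace Fermat.Agent.BAD.Glue

variable {F : Type*} [Field F]

/-- `∑_{i<m} a^i b^(m-1-i) ≡ m` if `a ≡ b ≡ 1`. -/
theorem geom_sum₂_sub_natCast_mem {O : ValuationSubring F} {a b : F} (ha : a - 1 ∈ maxI O)
    (hb : b - 1 ∈ maxI O) (m : ℕ) :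
    (∑ i ∈ Finset.range m, a ^ i * b ^ (m - 1 - i)) - (m : F) ∈ maxI O := by
  have hbO : b ∈ O := (unit_of_sub_one_mem hb).1
  have h1 : (m : F) = ∑ _i ∈ Finset.range m, (1 : F) := by simp
  rw [h1, ← Finset.sum_sub_distrib]
  refine (maxI O).sum_mem fun i _ => ?_
  have := mul_sub_mul_mem (pow_sub_one_mem ha i) (pow_sub_one_mem hb (m - 1 - i)) O.one_mem
    (O.pow_mem hbO _)
  simpa using this

theorem approx_root_unique_val {O : ValuationSubring F} {ϖ : F} {m : ℕ} (hmF : (m : F) ≠ 0)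
    (hminv : (m : F)⁻¹ ∈ O) {h : F} (hh : h - 1 ∈ maxI O) {a b : F} (ha : a - 1 ∈ maxI O)
    (hb : b - 1 ∈ maxI O) {k : ℕ} (hak : (a ^ m * h - 1) / ϖ ^ k ∈ O)
    (hbk : (b ^ m * h - 1) / ϖ ^ k ∈ O) : (a - b) / ϖ ^ k ∈ O := by
  by_cases hϖ : ϖ ^ k = 0
  · rw [hϖ, div_zero]; exact O.zero_mem
  set S : F := ∑ i ∈ Finset.range m, a ^ i * b ^ (m - 1 - i) with hS
  have hSm : S - (m : F) ∈ maxI O := geom_sum₂_sub_natCast_mem ha hb m
  have hS1 : S * (m : F)⁻¹ - 1 ∈ maxI O := by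
    have : S * (m : F)⁻¹ - 1 = (S - (m : F)) * (m : F)⁻¹ := by field_simp
    rw [this]
    exact mul_mem_maxI' hSm hminv
  obtain ⟨-, hSinv', hS0'⟩ := unit_of_sub_one_mem hS1
  have hS0 : S ≠ 0 := left_ne_zero_of_mul hS0'
  have hSinv : S⁻¹ ∈ O := by
    have : S⁻¹ = (S * (m : F)⁻¹)⁻¹ * (m : F)⁻¹ := by
      rw [mul_inv, inv_inv]; field_simp
    rw [this]
    exact O.mul_mem _ _ hSinv' hminv
  obtain ⟨-, hhinv, hh0⟩ := unit_of_sub_one_mem hh
  have hgeom : S * (a - b) = a ^ m - b ^ m := geom_sum₂_mul a b m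
  have key : (a - b) / ϖ ^ k =
      ((a ^ m * h - 1) / ϖ ^ k - (b ^ m * h - 1) / ϖ ^ k) * (S⁻¹ * h⁻¹) := by
    have : a - b = (a ^ m - b ^ m) * S⁻¹ := by
      rw [← hgeom]; field_simp
    rw [this]
    field_simp
    ring
  rw [key]
  exact O.mul_mem _ _ (O.sub_mem hak hbk) (O.mul_mem _ _ hSinv hhinv)

end Fermat.Agent.BAD.Glue
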