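/-
BAD / Glue (owner helper65): **INJ''** for several vertical valuations and a possibly non reduced
special fibre, with trivial gluing data.  Assembly of the nodes G1-G6.
-/
import Mathlib
import Fermat.Agent.S18.Defs
import Fermat.Agent.BAD.Glue.Basic
import Fermat.Agent.BAD.Glue.Section
import Fermat.Agent.BAD.Glue.NewtonMul
import Fermat.Agent.BAD.Glue.Unique
import Fermat.Agent.BAD.Glue.Cech

set_option autoImplicit false

namespace Fermat.Agent.BAD.Glue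

variable {F : Type*} [Field F] {ι : Type*}

/-! ## Assembly -/

theorem mem_of_pow_mem' (O : ValuationSubring F) {m : ℕ} (hm : 0 < m) {y : F}
    (hy : y ^ m ∈ O) : y ∈ O := by
  rw [← O.valuation_le_one_iff] at hy ⊢
  rw [map_pow] at hy
  by_contra hcon
  exact absurd hy (not_le.2 (one_lt_pow₀ (not_le.1 hcon) hm.ne'))

theorem IsMChart.qep_pow {O : ι → ValuationSubring F} {ϖ : F} {m : ℕ} {B : Subring F}
    (hB : IsMChart O ϖ m B) : ∀ (k : ℕ) (z : F), (∀ i, z ∈ O i) → ϖ ^ k * z ∈ B → z ∈ B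
  | 0, z, _, h => by simpa using h
  | k + 1, z, hz, h => by
      apply hB.qep_pow k z hz
      apply hB.qep _ (fun i => (O i).mul_mem _ _ ((O i).pow_mem (hB.le i _ hB.unif_mem) k) (hz i))
      have : ϖ * (ϖ ^ k * z) = ϖ ^ (k + 1) * z := by ring
      rw [this]; exact h

theorem root_mem_O {O : ι → ValuationSubring F} {ϖ : F} {m : ℕ} {B : Subring F}
    (hB : IsMChart O ϖ m B) (hm : 0 < m) {h : F} (hh : ∀ i, h - 1 ∈ maxI (O i)) {y : F}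
    (hy : y ^ m * h ∈ B) (i : ι) : y ∈ O i := by
  obtain ⟨-, hinv, h0⟩ := unit_of_sub_one_mem (hh i)
  apply mem_of_pow_mem' (O i) hm
  have : y ^ m = (y ^ m * h) * h⁻¹ := by field_simp
  rw [this]
  exact (O i).mul_mem _ _ (hB.le i _ hy) hinv

/-- **INJ''**: several vertical valuations, non reduced fibre, trivial gluing data. -/
theorem inj_multi [Finite ι] [Nonempty ι] {O : ι → ValuationSubring F} {ϖ : F}
    (hO : IsVertFam O ϖ)
    {A₀ B₁ B₂ : Subring F} {x : F} (hc : S18.IsCover A₀ x B₁ B₂) (hϖ : ϖ ∈ A₀)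
    {m : ℕ} (hm : 0 < m) (h₁ : IsMChart O ϖ m B₁) (h₂ : IsMChart O ϖ m B₂)
    {q : ℕ} (hq : q.Prime) (hqm : q.Coprime m) (hqO : ∀ i, (q : F) ∈ maxI (O i))
    {h : F} (hh : ∀ i, h - 1 ∈ maxI (O i))
    (g₁ : TrivGlue O B₁ ϖ m h) (g₂ : TrivGlue O B₂ ϖ m h) :
    ∃ s : F, s ≠ 0 ∧ s ^ m * h ∈ B₁ ∧ s ^ m * h ∈ B₂ := by
  obtain ⟨i₀⟩ := ‹Nonempty ι›
  have hπ0 := hO.ne_zero
  -- `m ≠ 0` in `F`
  have hmF : (m : F) ≠ 0 := by
    intro h0
    have hcop : IsCoprime (q : ℤ) (m : ℤ) := Nat.isCoprime_iff_coprime.2 hqm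
    obtain ⟨u, v, huv⟩ := hcop
    have h1 : (u : F) * (q : F) + (v : F) * (m : F) = 1 := by exact_mod_cast congrArg (Int.cast : ℤ → F) huv
    rw [h0, mul_zero, add_zero] at h1
    apply one_notMem_maxI (O := O i₀)
    rw [← h1]
    exact mul_mem_maxI (intCast_mem _ u) (hqO i₀)
  obtain ⟨hhO, hhinv, hh0⟩ := unit_of_sub_one_mem (hh i₀)
  obtain ⟨a₁, ha₁, ha₁1⟩ := exists_section_one hO h₁ hm hq hqm hqO hh g₁
  obtain ⟨a₂, ha₂, ha₂1⟩ := exists_section_one hO h₂ hm hq hqm hqO hh g₂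
  obtain ⟨k0, htors⟩ := exists_torsion_bound_root hc hm h₁.root h₂.root hϖ
    ⟨a₁, (unit_of_sub_one_mem (ha₁1 i₀)).2.2, ha₁⟩ hh0
  obtain ⟨a, ha, ha1, hak⟩ := newton_mul hO h₁ hm hmF hh ha₁ ha₁1 (k0 + 1)
  obtain ⟨b, hb, hb1, hbk⟩ := newton_mul hO h₂ hm hmF hh ha₂ ha₂1 (k0 + 1)
  have hab : ∀ i, (a - b) / ϖ ^ (k0 + 1) ∈ O i := fun i =>
    approx_root_unique_val hmF (h₁.le i _ h₁.minv) (hh i) (ha1 i) (hb1 i) (hak i) (hbk i)
  set y := (a - b) / ϖ ^ (k0 + 1) with hy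
  have hπk : ϖ ^ (k0 + 1) ≠ 0 := pow_ne_zero _ hπ0
  have hyeq : ϖ ^ (k0 + 1) * y = a - b := by rw [hy]; field_simp
  have hneg : ∀ {B : Subring F} {z : F}, z ^ m * h ∈ B → (-z) ^ m * h ∈ B := by
    intro B z hz
    have := mul_mem_root (B := B) (m := m) (h := h) (b := -1) (y := z)
      (B.neg_mem B.one_mem) hz
    simpa using this
  -- `y ∈ I₁₂`
  have hy12 : ∃ N : ℕ, x ^ N * (y ^ m * h) ∈ B₁ := by
    obtain ⟨N, hN⟩ := hc.overlap₂ _ hb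
    have hb' : (x ^ N * b) ^ m * h ∈ B₁ := by
      obtain ⟨j, rfl⟩ : ∃ j, m = j + 1 := ⟨m - 1, by omega⟩
      have : (x ^ N * b) ^ (j + 1) * h = (x ^ N) ^ j * (x ^ N * (b ^ (j + 1) * h)) := by ring
      rw [this]
      exact B₁.mul_mem (B₁.pow_mem (B₁.pow_mem hc.x_mem _) _) hN
    have ha' : (x ^ N * a) ^ m * h ∈ B₁ := mul_mem_root (B₁.pow_mem hc.x_mem _) ha
    have hsub : (x ^ N * a + -(x ^ N * b)) ^ m * h ∈ B₁ :=
      add_mem_root hm h₁.root ha' (hneg hb')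
    refine ⟨N * m, ?_⟩
    apply h₁.qep_pow ((k0 + 1) * m)
    · intro i
      exact (O i).mul_mem _ _ ((O i).pow_mem (h₁.le i _ hc.x_mem) _)
        ((O i).mul_mem _ _ ((O i).pow_mem (hab i) _) (unit_of_sub_one_mem (hh i)).1)
    · have : ϖ ^ ((k0 + 1) * m) * (x ^ (N * m) * (y ^ m * h))
          = (x ^ N * a + -(x ^ N * b)) ^ m * h := by
        have e : x ^ N * a + -(x ^ N * b) = x ^ N * (ϖ ^ (k0 + 1) * y) := by rw [hyeq]; ring
        rw [e, mul_pow, mul_pow, ← pow_mul, ← pow_mul]; ring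
      rw [this]; exact hsub
  obtain ⟨y₁, y₂, hy₁, hy₂, hsum⟩ := htors y hy12 (k0 + 1)
    ⟨a, -b, ha, hneg hb, by rw [hyeq]; ring⟩
  have hs₁ : (a + -(ϖ * y₁)) ^ m * h ∈ B₁ :=
    add_mem_root hm h₁.root ha (hneg (mul_mem_root h₁.unif_mem hy₁))
  have hs₂ : (a + -(ϖ * y₁)) ^ m * h ∈ B₂ := by
    have : a + -(ϖ * y₁) = b + ϖ * y₂ := by
      have e : ϖ ^ (k0 + 1) * y = ϖ * (ϖ ^ k0 * y) := by ring
      rw [e, hsum] at hyeq
      linear_combination -hyeq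
    rw [this]
    exact add_mem_root hm h₂.root hb (mul_mem_root h₂.unif_mem hy₂)
  refine ⟨a + -(ϖ * y₁), ?_, hs₁, hs₂⟩
  have : a + -(ϖ * y₁) - 1 ∈ maxI (O i₀) := by
    have e : a + -(ϖ * y₁) - 1 = (a - 1) - y₁ * ϖ := by ring
    rw [e]
    exact (maxI (O i₀)).sub_mem (ha1 i₀) (mul_mem_maxI (root_mem_O h₁ hm hh hy₁ i₀) (hO.mem i₀))
  exact (unit_of_sub_one_mem this).2.2

end Fermat.Agent.BAD.Glue
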